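import Mathlib
import Fermat.Prelude.Def_EllipticCurve_ZeroComponentAt
import Fermat.Prelude.Def_FLTPrelim_Ramification
import Fermat.Prelude.Def_ModularCurve_HeckeModule
import Fermat.Prelude.Def_ModularCurve_ModularUnit
import Fermat.Agent.S15.H242.Loc
import Fermat.Agent.S17.H680.Cusp
import Fermat.Agent.S54.FrobExists

/-!
# Row S15 (Mazur's Step 3): TOP assembly (acting architect helper915)

`s15_of_nodes` : the frozen statement S15 from three node statements at the prime level `p`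

* `CuspStatement p`    : the cusp `0`, the cuspidal class `c = [(0) - (∞)]`, Eisenstein, torsion,
                         of order divisible by every prime `r ∣ n = eisensteinNumerator p`
                         (the lower-bound half of Ogg's theorem);
* `GeoStatement p`     : the moduli point `x = (E, ⟨Q⟩)`, its class `D = [(x) - (0)]` in `J₀(p)(ℚ)`,
                         and, at every multiplicative prime `q ≠ p`, a specialisation map `sp` of
                         `J₀(p)`, injective on torsion prime to `q`, with Hecke-stable kernel, such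
                         that `sp D = 0` if `Q ∉ E⁰` and `sp (D + c) = 0` if `Q ∈ E⁰`;
* `DescentStatement p` : the Eisenstein descent (THE WALL): some Hecke operator `t`, acting on
                         Eisenstein classes by an integer prime to a prime `r ∣ n`, maps `J₀(p)(ℚ)`
                         into the torsion subgroup.

The local case (`ℓ ≢ ±1 mod p`) is `H242.step3_of_pm_one` (helper242, on main).
Everything in this file is sorry-free; the nodes are hypotheses.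
-/

set_option autoImplicit false

noncomputable section

open AlgebraicCurve ModularCurve WeierstrassCurve WeierstrassCurve.Affine

namespace Fermat.Agent.S15.Core

/-! ### Vocabulary -/

section Vocabulary

variable (p : ℕ) [NeZero p]

/-- The function `j`, as an element of `ℚ̄(X₀(p))`. -/
def jBar : modularFunctionFieldBar p :=
  ⟨coeffEmb (AlgebraicClosure ℚ) jq,
    coeffEmb_mem_laurentBaseChange _ (modularFunctionField_le_full p (jq_mem p))⟩

/-- The cusp `∞` (the place `ord_q`), from row S17 (helper680, on main). -/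
abbrev cuspInfty : Place (AlgebraicClosure ℚ) (modularFunctionFieldBar p) :=
  Fermat.Agent.S17.H680.JZero.cusp p

/-- A cusp `0`: a pole of `j` different from `∞`.  (For `p` prime it is unique.) -/
def IsCuspZero (P₀ : Place (AlgebraicClosure ℚ) (modularFunctionFieldBar p)) : Prop :=
  P₀ ≠ cuspInfty p ∧ P₀.ord (jBar p) < 0

variable {p}

/-- `z` is the class of the degree-zero divisor `(P) - (P')`. -/
def IsDiffClass (P P' : Place (AlgebraicClosure ℚ) (modularFunctionFieldBar p))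
    (z : JZero p) : Prop :=
  ∃ h : (Finsupp.single P (1 : ℤ) - Finsupp.single P' (1 : ℤ) :
      Divisor (AlgebraicClosure ℚ) (modularFunctionFieldBar p)) ∈
        Divisor.degZero (K := AlgebraicClosure ℚ) (F := modularFunctionFieldBar p),
    z = Pic0.mk ⟨_, h⟩

/-- `c` is an Eisenstein class: `T_ℓ c = (1 + ℓ) c` for all primes `ℓ ≠ p`. -/
def IsEisensteinClass (c : JZero p) : Prop :=
  ∀ ℓ : Nat.Primes, (ℓ : ℕ) ≠ p → heckeOperatorBar p ℓ c = ((1 + (ℓ : ℕ) : ℕ) : ℤ) • c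

variable (p)

/-- The Hecke operators `T_ℓ` of level `p` with `ℓ ≠ p`, `ℓ ∉ S`. -/
def goodHecke (S : Set ℕ) : Set (Module.End ℤ (JZero p)) :=
  {T | ∃ ℓ : Nat.Primes, (ℓ : ℕ) ≠ p ∧ (ℓ : ℕ) ∉ S ∧ T = heckeOperatorBar p ℓ}

/-- The ring of endomorphisms of `J₀(p)` generated by them (no commutativity is assumed). -/
def goodHeckeAlg (S : Set ℕ) : Subalgebra ℤ (Module.End ℤ (JZero p)) :=
  Algebra.adjoin ℤ (goodHecke p S)

/-! ### The three nodes -/

/-- **NODE CUSP.**  The cusp `0` exists, and the class `c = [(0) - (∞)]` is Eisenstein, torsion,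
of order divisible by every prime divisor of `n = eisensteinNumerator p`.
(In fact `addOrderOf c = n` by Ogg/Mazur; only this much is used.) -/
def CuspStatement : Prop :=
  ∃ (P₀ : Place (AlgebraicClosure ℚ) (modularFunctionFieldBar p)) (c : JZero p),
    IsCuspZero p P₀ ∧ IsDiffClass P₀ (cuspInfty p) c ∧ IsEisensteinClass c ∧
      addOrderOf c ≠ 0 ∧ ∀ r : ℕ, r.Prime → r ∣ eisensteinNumerator p → r ∣ addOrderOf c

/-- **NODE GEO.**  Moduli point + specialisation at the multiplicative primes. -/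
def GeoStatement : Prop :=
  ∀ (W : WeierstrassCurve ℤ), W.Δ ≠ 0 →
  ∀ (Q : ((W.map (Int.castRingHom ℚ))⁄(AlgebraicClosure ℚ)).Point),
    (∀ σ : AlgebraicClosure ℚ ≃ₐ[ℚ] AlgebraicClosure ℚ, σ • Q = Q) → addOrderOf Q = p →
  ∀ (P₀ : Place (AlgebraicClosure ℚ) (modularFunctionFieldBar p)) (c : JZero p),
    IsCuspZero p P₀ → IsDiffClass P₀ (cuspInfty p) c →
  ∃ D : JZero p, (∀ σ : AlgebraicClosure ℚ ≃ₐ[ℚ] AlgebraicClosure ℚ, σ • D = D) ∧
    ∀ q : ℕ, q.Prime → q ≠ p → (q : ℤ) ∣ W.Δ → ¬ (q : ℤ) ∣ W.c₄ →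
    ∀ A : ValuationSubring (AlgebraicClosure ℚ), A.LiesOverPrime q →
    ∃ (X : Type) (_ : AddCommGroup X) (sp : JZero p →+ X),
      (∀ (m : ℕ) (z : JZero p), ¬ q ∣ m → m • z = 0 → sp z = 0 → z = 0) ∧
      (∀ T ∈ goodHecke p {q}, ∀ z : JZero p, sp z = 0 → sp (T z) = 0) ∧
      (¬ W.InZeroComponentAt A Q → sp D = 0) ∧
      (W.InZeroComponentAt A Q → sp (D + c) = 0)

/-- **NODE DESC (the wall).**  Eisenstein descent: for every finite set `S` of primes to avoid,
there are a prime `r ∣ n` and an element `t` of the Hecke ring away from `S ∪ {p}` which acts on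
every Eisenstein class by an integer `e` prime to `r` and maps `J₀(p)(ℚ)` into the torsion. -/
def DescentStatement : Prop :=
  ∀ S : Finset ℕ, ∃ (r : ℕ) (t : Module.End ℤ (JZero p)) (e : ℤ),
    r.Prime ∧ r ∣ eisensteinNumerator p ∧ t ∈ goodHeckeAlg p (S : Set ℕ) ∧
    (∀ c : JZero p, IsEisensteinClass c → t c = e • c) ∧ ¬ (r : ℤ) ∣ e ∧
    ∀ z : JZero p, (∀ σ : AlgebraicClosure ℚ ≃ₐ[ℚ] AlgebraicClosure ℚ, σ • z = z) →
      ∃ m : ℕ, 0 < m ∧ m • t z = 0

end Vocabulary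

/-! ### Abstract lemmas -/

section Abstract

variable {M : Type*} [AddCommGroup M]

/-- A torsion element which reduces to `0` modulo two different primes (reduction being injective
on torsion prime to the characteristic) is zero. -/
theorem eq_zero_of_torsion_of_two_primes
    {J₁ J₂ : Type*} [AddCommGroup J₁] [AddCommGroup J₂]
    (red₁ : M →+ J₁) (red₂ : M →+ J₂) {q₁ q₂ : ℕ} (hq₁ : q₁.Prime) (hq₂ : q₂.Prime)
    (hne : q₁ ≠ q₂)
    (inj₁ : ∀ (m : ℕ) (z : M), ¬ q₁ ∣ m → m • z = 0 → red₁ z = 0 → z = 0)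
    (inj₂ : ∀ (m : ℕ) (z : M), ¬ q₂ ∣ m → m • z = 0 → red₂ z = 0 → z = 0)
    {z : M} {m : ℕ} (hm : 0 < m) (hmz : m • z = 0) (h₁ : red₁ z = 0) (h₂ : red₂ z = 0) :
    z = 0 := by
  obtain ⟨a, m₁, hm₁, rfl⟩ := Nat.exists_eq_pow_mul_and_not_dvd hm.ne' q₁ hq₁.ne_one
  have hz₁ : q₁ ^ a • z = 0 := by
    refine inj₁ m₁ (q₁ ^ a • z) hm₁ ?_ ?_
    · rw [← mul_smul, mul_comm]; exact hmz
    · rw [map_nsmul, h₁, smul_zero]
  refine inj₂ (q₁ ^ a) z ?_ hz₁ h₂
  intro hdvd
  have := (Nat.prime_dvd_prime_iff_eq hq₂ hq₁).mp (hq₂.dvd_of_dvd_pow hdvd)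
  exact hne this.symm

end Abstract

section Kernel

variable {p : ℕ} [NeZero p]

/-- The kernel of a specialisation map is stable under the Hecke ring as soon as it is stable
under the generators. -/
theorem sp_eq_zero_of_mem_goodHeckeAlg {X : Type*} [AddCommGroup X] (sp : JZero p →+ X)
    {S S' : Set ℕ} (hS : S' ⊆ S)
    (hgen : ∀ T ∈ goodHecke p S', ∀ z : JZero p, sp z = 0 → sp (T z) = 0)
    {t : Module.End ℤ (JZero p)} (ht : t ∈ goodHeckeAlg p S) :
    ∀ z : JZero p, sp z = 0 → sp (t z) = 0 := by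
  induction ht using Algebra.adjoin_induction with
  | mem T hT =>
    obtain ⟨ℓ, hℓp, hℓS, rfl⟩ := hT
    exact hgen _ ⟨ℓ, hℓp, fun h => hℓS (hS h), rfl⟩
  | algebraMap a =>
    intro z hz
    rw [Algebra.algebraMap_eq_smul_one, LinearMap.smul_apply, Module.End.one_apply, map_zsmul,
      hz, smul_zero]
  | add T T' _ _ hT hT' =>
    intro z hz
    rw [LinearMap.add_apply, map_add, hT z hz, hT' z hz, add_zero]
  | mul T T' _ _ hT hT' =>
    intro z hz
    rw [Module.End.mul_apply]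
    exact hT _ (hT' z hz)

end Kernel

/-! ### The assembly -/

theorem eisensteinNumerator_le_half {p : ℕ} (hp : p.Prime) (hp2 : p ≠ 2) :
    2 * eisensteinNumerator p ≤ p - 1 := by
  have hodd : p % 2 = 1 := hp.eq_two_or_odd.resolve_left hp2
  have hp1 := hp.two_le
  have h2 : 2 ∣ Nat.gcd (p - 1) 12 := Nat.dvd_gcd (by omega) (by norm_num)
  have hg : 0 < Nat.gcd (p - 1) 12 := Nat.gcd_pos_of_pos_right _ (by norm_num)
  have hle : 2 ≤ Nat.gcd (p - 1) 12 := Nat.le_of_dvd hg h2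
  unfold eisensteinNumerator
  calc 2 * ((p - 1) / Nat.gcd (p - 1) 12)
      ≤ Nat.gcd (p - 1) 12 * ((p - 1) / Nat.gcd (p - 1) 12) := Nat.mul_le_mul_right _ hle
    _ ≤ p - 1 := Nat.mul_div_le _ _

/-- **Row S15, TOP.**  The frozen statement S15 from the three nodes at level `p`. -/
theorem s15_of_nodes
    {p : ℕ} (hp : p.Prime) (hp' : p ∉ ({2, 3, 5, 7, 13} : Finset ℕ))
    (hCusp : haveI : NeZero p := ⟨hp.ne_zero⟩; CuspStatement p)
    (hGeo : haveI : NeZero p := ⟨hp.ne_zero⟩; GeoStatement p)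
    (hDesc : haveI : NeZero p := ⟨hp.ne_zero⟩; DescentStatement p)
    (W : WeierstrassCurve ℤ) (hΔ : W.Δ ≠ 0)
    (Q : ((W.map (Int.castRingHom ℚ))⁄(AlgebraicClosure ℚ)).Point)
    (hQfix : ∀ σ : AlgebraicClosure ℚ ≃ₐ[ℚ] AlgebraicClosure ℚ, σ • Q = Q)
    (hQord : addOrderOf Q = p)
    (h2Δ : (2 : ℤ) ∣ W.Δ) (h2c₄ : ¬ (2 : ℤ) ∣ W.c₄)
    (h2 : ∀ A : ValuationSubring (AlgebraicClosure ℚ), A.LiesOverPrime 2 →
      ¬ W.InZeroComponentAt A Q)
    (h3Δ : (3 : ℤ) ∣ W.Δ) (h3c₄ : ¬ (3 : ℤ) ∣ W.c₄)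
    (h3 : ∀ A : ValuationSubring (AlgebraicClosure ℚ), A.LiesOverPrime 3 →
      ¬ W.InZeroComponentAt A Q)
    {ℓ : ℕ} (hℓ : ℓ.Prime) (hℓp : ℓ ≠ p) (hℓΔ : (ℓ : ℤ) ∣ W.Δ) (hℓc₄ : ¬ (ℓ : ℤ) ∣ W.c₄)
    (A : ValuationSubring (AlgebraicClosure ℚ)) (hA : A.LiesOverPrime ℓ) :
    ¬ W.InZeroComponentAt A Q := by
  have : NeZero p := ⟨hp.ne_zero⟩
  have hp2 : p ≠ 2 := fun h => hp' (by simp [h])
  have hp3 : p ≠ 3 := fun h => hp' (by simp [h])
  refine Fermat.Agent.S15.H242.step3_of_pm_one hp W Q hQfix hQord hℓ hℓp hℓΔ hℓc₄ A hA ?_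
  intro hpm hQ0
  obtain ⟨P₀, c, hP₀, hc, hEis, hord0, hordr⟩ := hCusp
  obtain ⟨D, hDfix, hD⟩ := hGeo W hΔ Q hQfix hQord P₀ c hP₀ hc
  obtain ⟨r, t, e, hr, hrn, ht, hte, hre, htors⟩ := hDesc {2, 3, ℓ}
  obtain ⟨A₂, hA₂⟩ := Fermat.Agent.S54.exists_valuationSubring_liesOver 2 Nat.prime_two
  obtain ⟨A₃, hA₃⟩ := Fermat.Agent.S54.exists_valuationSubring_liesOver 3 Nat.prime_three
  obtain ⟨X₂, _, sp₂, inj₂, hk₂, hz₂, -⟩ :=
    hD 2 Nat.prime_two (Ne.symm hp2) (by exact_mod_cast h2Δ) (by exact_mod_cast h2c₄) A₂ hA₂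
  obtain ⟨X₃, _, sp₃, inj₃, hk₃, hz₃, -⟩ :=
    hD 3 Nat.prime_three (Ne.symm hp3) (by exact_mod_cast h3Δ) (by exact_mod_cast h3c₄) A₃ hA₃
  obtain ⟨Xℓ, _, spℓ, injℓ, hkℓ, -, hzℓ⟩ := hD ℓ hℓ hℓp hℓΔ hℓc₄ A hA
  -- `t D` is torsion and specialises to `0` at `2` and `3`, hence vanishes
  obtain ⟨m, hm, hmD⟩ := htors D hDfix
  have hS2 : ({2} : Set ℕ) ⊆ (({2, 3, ℓ} : Finset ℕ) : Set ℕ) := by
    intro x hx; simp only [Set.mem_singleton_iff] at hx; simp [hx]
  have hS3 : ({3} : Set ℕ) ⊆ (({2, 3, ℓ} : Finset ℕ) : Set ℕ) := by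
    intro x hx; simp only [Set.mem_singleton_iff] at hx; simp [hx]
  have hSℓ : ({ℓ} : Set ℕ) ⊆ (({2, 3, ℓ} : Finset ℕ) : Set ℕ) := by
    intro x hx; simp only [Set.mem_singleton_iff] at hx; simp [hx]
  have htD : t D = 0 :=
    eq_zero_of_torsion_of_two_primes sp₂ sp₃ Nat.prime_two Nat.prime_three (by norm_num)
      inj₂ inj₃ hm hmD
      (sp_eq_zero_of_mem_goodHeckeAlg sp₂ hS2 hk₂ ht D (hz₂ (h2 A₂ hA₂)))
      (sp_eq_zero_of_mem_goodHeckeAlg sp₃ hS3 hk₃ ht D (hz₃ (h3 A₃ hA₃)))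
  -- at `ℓ`: `sp (t c) = 0`
  have h1 : spℓ (t (D + c)) = 0 :=
    sp_eq_zero_of_mem_goodHeckeAlg spℓ hSℓ hkℓ ht (D + c) (hzℓ hQ0)
  rw [map_add, htD, zero_add, hte c hEis] at h1
  -- the element `y = (ord c / r) • e • c` has order `r`
  set n := eisensteinNumerator p with hn
  have hn0 : 0 < n := by
    have hg : 0 < Nat.gcd (p - 1) 12 := Nat.gcd_pos_of_pos_right _ (by norm_num)
    have hp1 : 0 < p - 1 := by have := hp.two_le; omega
    exact Nat.div_pos (Nat.le_of_dvd hp1 (Nat.gcd_dvd_left _ _)) hg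
  have hrle : r ≤ n := Nat.le_of_dvd hn0 hrn
  have hnc : addOrderOf c • c = 0 := addOrderOf_nsmul_eq_zero c
  obtain ⟨s, hs⟩ := hordr r hr hrn
  have hs0 : s ≠ 0 := by
    rintro rfl
    rw [mul_zero] at hs
    exact hord0 hs
  have hry : r • (s • (e • c)) = 0 := by
    rw [← mul_smul, ← hs, smul_comm, hnc, smul_zero]
  have hy0 : s • (e • c) ≠ 0 := by
    intro h0
    have h' : ((s : ℤ) * e) • c = 0 := by
      rw [mul_smul, natCast_zsmul]
      exact h0
    have hdvd : (addOrderOf c : ℤ) ∣ (s : ℤ) * e := addOrderOf_dvd_iff_zsmul_eq_zero.mpr h'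
    rw [hs] at hdvd
    push_cast at hdvd
    have hdvd' : (r : ℤ) * (s : ℤ) ∣ e * (s : ℤ) := by rwa [mul_comm e]
    exact hre (Int.dvd_of_mul_dvd_mul_right (by exact_mod_cast hs0) hdvd')
  have hspy : spℓ (s • (e • c)) = 0 := by rw [map_nsmul, h1, smul_zero]
  have hℓr : ¬ ℓ ∣ r := by
    intro h
    have hrl : ℓ = r := (Nat.prime_dvd_prime_iff_eq hℓ hr).mp h
    have hhalf : 2 * n ≤ p - 1 := eisensteinNumerator_le_half hp hp2
    have hp1 := hp.two_le
    have hℓ2 := hℓ.two_le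
    rcases hpm with h1' | h1'
    · have : ℓ - 1 = 0 := Nat.eq_zero_of_dvd_of_lt h1' (by omega)
      omega
    · have hle : p ≤ ℓ + 1 := Nat.le_of_dvd (by omega) h1'
      omega
  exact hy0 (injℓ r _ hℓr hry hspy)

end Fermat.Agent.S15.Core
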